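import Fermat.Agent.TotientValues.Counting

/-!
# The number of values of `φ` and of `σ`

Erdős (1935): there are `x / (log x) ^ (1 + o (1))` totients, and as many sums of divisors, up to
`x`. The primes give the lower bound. A value `m` with `Ω m < 9 log log x` comes from an `n` having
few exact prime divisors `p` with many prime factors in `p ∓ 1`, and such `n` are rare; the other
values are rare by themselves.
-/

set_option autoImplicit false

noncomputable section

namespace FA.TotientValues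

open Finset Filter
open FA.ErdosKac (primesUpTo mem_primesUpTo loglog tendsto_loglog)
open FA.ShiftedPrimeOmega (shifted)
open scoped Topology Classical ArithmeticFunction.Omega

/-- The number of values of `F` in `[1, x]`. -/
def valueCount (F : ℕ → ℕ) (x : ℕ) : ℕ := ((Icc 1 x).filter fun m => ∃ n, F n = m).card

theorem tendsto_log_natCast : Tendsto (fun x : ℕ => Real.log x) atTop atTop :=
  Real.tendsto_log_atTop.comp tendsto_natCast_atTop_atTop

/-- **The upper bound**, for an `F` that keeps track of `p + a` over the exact prime divisors. -/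
theorem eventually_valueCount_le {F : ℕ → ℕ} {a : ℤ} (ha : a ≠ 0) (h0 : F 0 = 0)
    (hbound : ∀ n, n ≠ 0 → n ≤ F n * (Ω (F n) + 2))
    (hrich : ∀ A n, n ≠ 0 → A * (richPrimes a A n).card ≤ Ω (F n)) {ε : ℝ} (hε : 0 < ε) :
    ∀ᶠ x : ℕ in atTop, (valueCount F x : ℝ) ≤ x / Real.log x ^ (1 - ε) := by
  wlog hε1 : ε ≤ 1 generalizing ε
  · filter_upwards [this one_pos le_rfl, tendsto_log_natCast.eventually_ge_atTop 1] with x hx hl
    rw [sub_self, Real.rpow_zero, div_one] at hx
    refine hx.trans ?_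
    rw [le_div_iff₀ (by positivity)]
    exact mul_le_of_le_one_right (Nat.cast_nonneg x)
      (Real.rpow_le_one_of_one_le_of_nonpos hl (by linarith [not_le.1 hε1]))
  obtain ⟨u, hu⟩ : ∃ u, u = ε / 8 := ⟨_, rfl⟩
  have hu0 : 0 < u := by linarith
  obtain ⟨c, hc⟩ : ∃ c, c = -Real.log u := ⟨_, rfl⟩
  have hc0 : 0 ≤ c := by linarith [Real.log_nonpos hu0.le (by linarith : u ≤ 1)]
  obtain ⟨A, hA⟩ : ∃ A : ℕ, A = ⌈72 * c / ε⌉₊ + 1 := ⟨_, rfl⟩
  have hA0 : (0 : ℝ) < A := Nat.cast_pos.2 (by omega)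
  have hAc : 72 * c ≤ ε * A := by
    rw [mul_comm ε, ← div_le_iff₀ hε, hA]
    push_cast
    linarith [Nat.le_ceil (72 * c / ε)]
  obtain ⟨C, hC0, hC⟩ := exists_card_few_rich_le ha A hu0 (by linarith) hu0
  obtain ⟨M, hM⟩ : ∃ M, M = C * (36 / ε + 5) * Real.exp 2 + 4 := ⟨_, rfl⟩
  filter_upwards [((tendsto_loglog.const_mul_atTop (show 0 < 3 * ε / 8 by positivity))
      ).eventually_ge_atTop M,
    tendsto_loglog.eventually_ge_atTop 0, tendsto_log_natCast.eventually_ge_atTop 1,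
    (Real.isLittleO_log_id_atTop.def (show (0 : ℝ) < 1 / 14 by norm_num)).natCast_atTop,
    eventually_ge_atTop 2] with x hxM hL0 hl1 hxl hx2
  obtain ⟨L, hL⟩ : ∃ L, L = loglog x := ⟨_, rfl⟩
  obtain ⟨ℓ, hℓ⟩ : ∃ ℓ, ℓ = Real.log x := ⟨_, rfl⟩
  simp only [id, Real.norm_eq_abs, Nat.abs_cast, abs_of_nonneg (zero_le_one.trans hl1)] at hxl
  rw [← hL] at hxM hL0
  rw [← hℓ] at hl1 hxl ⊢
  have hx0 : (0 : ℝ) < x := Nat.cast_pos.2 (by omega)
  have hexpL : Real.exp L = ℓ := by rw [hL, loglog, ← hℓ, Real.exp_log (by linarith)]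
  have hLℓ : L ≤ ℓ := by linarith [Real.add_one_le_exp L]
  obtain ⟨K, hK⟩ : ∃ K : ℕ, K = ⌈3 * L⌉₊ := ⟨_, rfl⟩
  have hK1 : 3 * L ≤ K := hK ▸ Nat.le_ceil _
  have hK2 : (K : ℝ) ≤ 3 * L + 1 := by
    rw [hK]; exact (Nat.ceil_lt_add_one (by linarith)).le
  obtain ⟨X, hX⟩ : ∃ X, X = x * (3 * K + 2) := ⟨_, rfl⟩
  obtain ⟨t, ht⟩ : ∃ t : ℝ, t = 3 * K / A := ⟨_, rfl⟩
  obtain ⟨G, hG⟩ : ∃ G, G = (Icc 1 X).filter fun n => ((richPrimes a A n).card : ℝ) ≤ t :=
    ⟨_, rfl⟩
  have hsub : ((Icc 1 x).filter fun m => ∃ n, F n = m) ⊆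
      ((Icc 1 x).filter fun m => 3 * K ≤ Ω m) ∪ G.image F := fun m hm => by
    obtain ⟨hm, n, rfl⟩ := mem_filter.1 hm
    rw [mem_union, mem_filter, mem_image]
    by_cases hΩ : 3 * K ≤ Ω (F n)
    · exact Or.inl ⟨hm, hΩ⟩
    rw [mem_Icc] at hm
    have hn : n ≠ 0 := fun h => by rw [h, h0] at hm; omega
    refine Or.inr ⟨n, ?_, rfl⟩
    rw [hG, mem_filter, mem_Icc, ht, le_div_iff₀ hA0]
    refine ⟨⟨Nat.one_le_iff_ne_zero.2 hn, (hbound n hn).trans ?_⟩, ?_⟩
    · rw [hX]
      exact Nat.mul_le_mul hm.2 (by omega)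
    · rw [mul_comm]
      exact_mod_cast (hrich A n hn).trans (not_le.1 hΩ).le
  have hX2 : x ≤ X := hX ▸ Nat.le_mul_of_pos_right x (by omega)
  have hK3 : (3 * K + 2 : ℝ) ≤ 9 * L + 5 := by linarith
  have hXx : (X : ℝ) ≤ x * (9 * L + 5) := by
    rw [hX]
    push_cast
    exact mul_le_mul_of_nonneg_left hK3 hx0.le
  have hXl : ℓ ≤ Real.log X := hℓ ▸ Real.log_le_log hx0 (Nat.cast_le.2 hX2)
  have hXL : loglog X ≤ L + 1 := by
    have h1 : Real.log X ≤ 2 * ℓ := by
      rw [hℓ, two_mul, ← Real.log_mul hx0.ne' hx0.ne']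
      refine Real.log_le_log (Nat.cast_pos.2 (by omega))
        (hXx.trans (mul_le_mul_of_nonneg_left ?_ hx0.le))
      linarith
    refine (Real.log_le_log (by linarith) h1).trans ?_
    rw [Real.log_mul two_ne_zero (by linarith), hL, loglog, ← hℓ]
    linarith [Real.log_two_lt_d9]
  have hG' : (G.card : ℝ) ≤
      C * (36 / ε + 5) * Real.exp 2 * Real.exp (5 * ε / 8 * L) * x / ℓ := by
    have hut : u ^ (-t) ≤ Real.exp (ε / 8 * L + 1) := by
      rw [Real.rpow_def_of_pos hu0]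
      refine Real.exp_le_exp.2 ?_
      rw [show Real.log u * -t = c * t by rw [hc]; ring, ht, mul_div_assoc',
        div_le_iff₀ hA0]
      have h1 := mul_le_mul_of_nonneg_left (show (3 * K : ℝ) ≤ 9 * L + 3 by linarith) hc0
      have h2 := mul_le_mul_of_nonneg_right hAc hL0
      have h3 := mul_le_mul_of_nonneg_right hε1 hA0.le
      linarith
    have hXX : (X : ℝ) / Real.log X ≤ (36 / ε + 5) * Real.exp (ε / 4 * L) * x / ℓ := by
      refine div_le_div₀ (by positivity) (hXx.trans (le_of_le_of_eq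
        (mul_le_mul_of_nonneg_left ?_ hx0.le) (mul_comm _ _))) (by linarith) hXl
      have h1 : 36 / ε * (ε / 4 * L) = 9 * L := by field_simp; ring
      have h2 : 36 / ε * (ε / 4 * L) ≤ 36 / ε * Real.exp (ε / 4 * L) :=
        mul_le_mul_of_nonneg_left (by linarith [Real.add_one_le_exp (ε / 4 * L)]) (by positivity)
      linarith [Real.one_le_exp (show 0 ≤ ε / 4 * L by positivity)]
    have hee : Real.exp ((u + u) * loglog X) ≤ Real.exp (ε / 4 * L + 1) := by
      refine Real.exp_le_exp.2 ?_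
      rw [show u + u = ε / 4 by linarith]
      linarith [mul_le_mul_of_nonneg_left hXL (show 0 ≤ ε / 4 by linarith)]
    rw [hG]
    refine (hC X (by omega) t).trans ((mul_le_mul (mul_le_mul (mul_le_mul_of_nonneg_left hut hC0)
      hXX (div_nonneg (Nat.cast_nonneg _) (Real.log_natCast_nonneg _)) (by positivity)) hee
      (Real.exp_nonneg _) (by positivity)).trans (le_of_eq ?_))
    rw [show (5 * ε / 8 * L) = ε / 8 * L + ε / 4 * L + ε / 4 * L by ring, Real.exp_add,
      Real.exp_add, Real.exp_add, Real.exp_add,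
      show Real.exp 2 = Real.exp 1 * Real.exp 1 by rw [← Real.exp_add]; norm_num]
    ring
  have hbig : (((Icc 1 x).filter fun m => 3 * K ≤ Ω m).card : ℝ) ≤ 4 * x / ℓ := by
    refine (card_many_factors_le x K).trans ?_
    rw [← hℓ, div_le_div_iff₀ (by positivity) (by linarith)]
    have h1 : ℓ ^ 2 ≤ (2 : ℝ) ^ K := by
      rw [← hexpL, ← Real.exp_nat_mul, ← Real.exp_log (show (0 : ℝ) < 2 by norm_num),
        ← Real.exp_nat_mul]
      refine Real.exp_le_exp.2 ?_
      push_cast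
      have h2 := mul_le_mul_of_nonneg_left hK1 (Real.log_nonneg one_le_two)
      have h3 := mul_le_mul_of_nonneg_right Real.log_two_gt_d9.le hL0
      linarith
    have h4 : ℓ * (3 + ℓ) ≤ 4 * ℓ ^ 2 := by
      have := mul_le_mul_of_nonneg_left hl1 (zero_le_one.trans hl1)
      linarith
    have h5 := mul_le_mul_of_nonneg_left (h4.trans (mul_le_mul_of_nonneg_left h1 (by norm_num)))
      hx0.le
    linarith
  have hkey : (valueCount F x : ℝ) ≤ M * Real.exp (5 * ε / 8 * L) * x / ℓ := by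
    refine (Nat.cast_le.2 ((card_le_card hsub).trans ((card_union_le _ _).trans
      (Nat.add_le_add le_rfl card_image_le)))).trans ?_
    rw [Nat.cast_add]
    refine (add_le_add hbig hG').trans ?_
    rw [← add_div, hM]
    refine div_le_div_of_nonneg_right ?_ (by linarith)
    have := mul_le_mul_of_nonneg_right (Real.one_le_exp (show 0 ≤ 5 * ε / 8 * L by positivity))
      hx0.le
    linarith
  refine hkey.trans ?_
  rw [Real.rpow_sub (by linarith), Real.rpow_one, div_div_eq_mul_div]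
  refine div_le_div_of_nonneg_right ?_ (by linarith)
  rw [mul_comm (x : ℝ)]
  refine mul_le_mul_of_nonneg_right ?_ hx0.le
  rw [Real.rpow_def_of_pos (by linarith), ← hexpL, Real.log_exp]
  have hMe : M ≤ Real.exp (3 * ε / 8 * L) :=
    hxM.trans (by linarith [Real.add_one_le_exp (3 * ε / 8 * L)])
  refine (mul_le_mul_of_nonneg_right hMe (Real.exp_nonneg _)).trans (le_of_eq ?_)
  rw [← Real.exp_add]
  ring_nf

/-- The primes give the lower bound. -/
theorem eventually_le_valueCount {F : ℕ → ℕ} (g : ℕ → ℕ)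
    (hg : ∀ p, p.Prime → ∃ n, F n = g p) (hinj : Set.InjOn g {p : ℕ | p.Prime})
    (hrange : ∀ p x, p.Prime → p < x → 1 ≤ g p ∧ g p ≤ x) {ε : ℝ} (hε : 0 < ε) :
    ∀ᶠ x : ℕ in atTop, (x : ℝ) / Real.log x ^ (1 + ε) ≤ valueCount F x := by
  obtain ⟨C, -, hlev⟩ := FA.ShiftedPrimeOmega.exists_level (a := 1)
  filter_upwards [hlev, ((tendsto_rpow_atTop hε).comp tendsto_log_natCast).eventually_ge_atTop 8,
    (Real.isLittleO_log_id_atTop.def (show (0 : ℝ) < 1 / 8 by norm_num)).natCast_atTop,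
    tendsto_log_natCast.eventually_ge_atTop 1]
    with x hx h8 hxl hl1
  obtain ⟨ℓ, hℓ⟩ : ∃ ℓ, ℓ = Real.log x := ⟨_, rfl⟩
  simp only [id, Real.norm_eq_abs, Nat.abs_cast, abs_of_nonneg (zero_le_one.trans hl1)] at hxl
  simp only [Function.comp_apply] at h8
  rw [← hℓ] at hx h8 hxl hl1 ⊢
  have hsub : ((primesUpTo x).erase x).image g ⊆
      (Icc 1 x).filter fun m => ∃ n, F n = m := fun m hm => by
    obtain ⟨p, hp, rfl⟩ := mem_image.1 hm
    obtain ⟨hne, hp⟩ := mem_erase.1 hp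
    obtain ⟨hpp, hpx⟩ := mem_primesUpTo.1 hp
    rw [mem_filter, mem_Icc]
    exact ⟨hrange p x hpp (lt_of_le_of_ne hpx hne), hg p hpp⟩
  have h1 : (primesUpTo x).card ≤ valueCount F x + 1 := by
    have h := card_le_card hsub
    rw [card_image_of_injOn (hinj.mono fun p hp => by
      exact (mem_primesUpTo.1 (mem_of_mem_erase hp)).1)] at h
    have h2 := pred_card_le_card_erase (s := primesUpTo x) (a := x)
    rw [valueCount]
    omega
  have h2 : ((primesUpTo x).card : ℝ) ≤ valueCount F x + 1 := by exact_mod_cast h1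
  have hℓ0 : 0 < ℓ := by linarith
  have h3 : 1 ≤ (x : ℝ) / (8 * ℓ) := by
    rw [le_div_iff₀ (by positivity)]
    linarith
  have h4 : (x : ℝ) / ℓ ^ (1 + ε) ≤ x / (8 * ℓ) := by
    refine div_le_div_of_nonneg_left (Nat.cast_nonneg x) (by positivity) ?_
    rw [Real.rpow_add hℓ0, Real.rpow_one, mul_comm]
    exact mul_le_mul_of_nonneg_left h8 hℓ0.le
  have h5 : (x : ℝ) / (4 * ℓ) = 2 * (x / (8 * ℓ)) := by field_simp; ring
  linarith [hx.2.2]

/-- The two bounds give the exponent. -/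
theorem tendsto_exponent {F : ℕ → ℕ}
    (hup : ∀ ε : ℝ, 0 < ε → ∀ᶠ x : ℕ in atTop, (valueCount F x : ℝ) ≤ x / Real.log x ^ (1 - ε))
    (hlow : ∀ ε : ℝ, 0 < ε → ∀ᶠ x : ℕ in atTop,
      (x : ℝ) / Real.log x ^ (1 + ε) ≤ valueCount F x) :
    Tendsto (fun x : ℕ => Real.log ((x : ℝ) / valueCount F x) / Real.log (Real.log x)) atTop
      (𝓝 1) := by
  refine Metric.tendsto_nhds.2 fun ε hε => ?_
  filter_upwards [hup (ε / 2) (half_pos hε), hlow (ε / 2) (half_pos hε),
    tendsto_loglog.eventually_gt_atTop 0, tendsto_log_natCast.eventually_gt_atTop 0,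
    eventually_ge_atTop 1] with x h1 h2 hL hl hx
  rw [loglog] at hL
  have hx0 : (0 : ℝ) < x := Nat.cast_pos.2 hx
  have hp : ∀ r : ℝ, 0 < Real.log x ^ r := fun r => Real.rpow_pos_of_pos hl r
  have hV : (0 : ℝ) < valueCount F x := (div_pos hx0 (hp _)).trans_le h2
  rw [le_div_iff₀ (hp _)] at h1
  rw [div_le_iff₀ (hp _)] at h2
  have e1 := Real.log_le_log (mul_pos hV (hp _)) h1
  have e2 := Real.log_le_log hx0 h2
  rw [Real.log_mul hV.ne' (hp _).ne', Real.log_rpow hl] at e1 e2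
  rw [Real.dist_eq, Real.log_div hx0.ne' hV.ne', abs_lt, lt_sub_iff_add_lt, sub_lt_iff_lt_add,
    lt_div_iff₀ hL, div_lt_iff₀ hL]
  have h3 := mul_pos hε hL
  constructor <;> linarith

theorem prod_le_card_succ_mul {S : Finset ℕ} (hS : ∀ p ∈ S, 2 ≤ p) :
    ∏ p ∈ S, p ≤ (S.card + 1) * ∏ p ∈ S, (p - 1) := by
  induction S using Finset.induction_on_max with
  | empty => simp
  | insert b s hlt ih =>
    have hnb : b ∉ s := fun h => (hlt b h).false
    simp only [mem_insert, forall_eq_or_imp] at hS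
    obtain ⟨hb, hs⟩ := hS
    rw [prod_insert hnb, prod_insert hnb, card_insert_of_notMem hnb]
    have hcard : s.card + 2 ≤ b := by
      have := card_le_card (s := s) (t := Ico 2 b) fun p hp => mem_Ico.2 ⟨hs p hp, hlt p hp⟩
      rw [Nat.card_Ico] at this
      omega
    have key : b * (s.card + 1) ≤ (s.card + 2) * (b - 1) := by
      obtain ⟨d, rfl⟩ := Nat.exists_eq_add_of_le hcard
      rw [show s.card + 2 + d - 1 = s.card + 1 + d by omega]
      linarith
    calc b * ∏ p ∈ s, p ≤ b * ((s.card + 1) * ∏ p ∈ s, (p - 1)) := Nat.mul_le_mul_left _ (ih hs)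
      _ = b * (s.card + 1) * ∏ p ∈ s, (p - 1) := (mul_assoc _ _ _).symm
      _ ≤ (s.card + 2) * (b - 1) * ∏ p ∈ s, (p - 1) := Nat.mul_le_mul_right _ key
      _ = _ := mul_assoc _ _ _

theorem sum_cardFactors_pred_le {n : ℕ} (hn : n ≠ 0) :
    ∑ p ∈ n.primeFactors, Ω (p - 1) ≤ Ω n.totient := by
  have h : ((∑ p ∈ n.primeFactors, Ω (p - 1) : ℕ) : ℝ) ≤ Ω n.totient := by
    rw [FA.OmegaPhi.cardFactors_totient hn, Nat.cast_sum]
    linarith [FA.OmegaPhi.card_le_cardFactors n]
  exact_mod_cast h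

theorem le_totient_mul {n : ℕ} (hn : n ≠ 0) : n ≤ n.totient * (Ω n.totient + 2) := by
  have hω : n.primeFactors.card ≤ Ω n.totient + 1 := by
    refine le_trans ?_ (Nat.add_le_add_right (sum_cardFactors_pred_le hn) 1)
    refine (card_le_card (subset_union_left.trans (union_subset
      (fun p hp => ?_) (subset_refl (({2} : Finset ℕ) ∪
        n.primeFactors.filter fun p => 2 < p))))).trans ?_
    · rcases (Nat.prime_of_mem_primeFactors hp).two_le.eq_or_lt with h | h
      · exact mem_union_left _ (mem_singleton.2 h.symm)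
      · exact mem_union_right _ (mem_filter.2 ⟨hp, h⟩)
    refine (card_union_le _ _).trans ?_
    rw [card_singleton, add_comm]
    refine Nat.add_le_add_right (le_trans ?_
      (sum_le_sum_of_subset (filter_subset (fun p => 2 < p) _))) 1
    refine (mul_one _).symm.trans_le ?_
    rw [← smul_eq_mul]
    refine card_nsmul_le_sum _ _ _ fun p hp => ?_
    have := (mem_filter.1 hp).2
    exact ArithmeticFunction.cardFactors_pos_iff_one_lt.2 (by omega)
  have hpos : 0 < ∏ p ∈ n.primeFactors, (p - 1) :=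
    prod_pos fun p hp => Nat.sub_pos_of_lt (Nat.prime_of_mem_primeFactors hp).one_lt
  refine Nat.le_of_mul_le_mul_right ?_ hpos
  rw [← Nat.totient_mul_prod_primeFactors n, mul_assoc]
  exact Nat.mul_le_mul_left _ ((prod_le_card_succ_mul fun p hp =>
    (Nat.prime_of_mem_primeFactors hp).two_le).trans (Nat.mul_le_mul_right _ (by omega)))

theorem mul_card_richPrimes_totient_le (A n : ℕ) (hn : n ≠ 0) :
    A * (richPrimes (-1) A n).card ≤ Ω n.totient := by
  refine le_trans ?_ ((sum_le_sum_of_subset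
    (show richPrimes (-1) A n ⊆ n.primeFactors from filter_subset _ _)).trans
    (sum_cardFactors_pred_le hn))
  rw [mul_comm, ← smul_eq_mul, richPrimes]
  refine card_nsmul_le_sum _ _ _ fun p hp => ?_
  obtain ⟨hp, -, hA⟩ := mem_filter.1 hp
  rw [FA.OmegaPhi.shifted_neg_one (Nat.prime_of_mem_primeFactors hp).one_le] at hA
  exact hA.le.trans (Nat.cast_le.1 (FA.OmegaPhi.card_le_cardFactors (p - 1)))

theorem mul_card_richPrimes_sigma_le (A n : ℕ) (hn : n ≠ 0) :
    A * (richPrimes 1 A n).card ≤ Ω (∑ d ∈ n.divisors, d) := by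
  rw [Nat.sum_divisors hn, FA.OmegaPhi.cardFactors_prod _ fun p _ => Nat.one_le_iff_ne_zero.1
    ((single_le_sum (f := fun k => p ^ k) (fun _ _ => Nat.zero_le _)
      (mem_range.2 (Nat.succ_pos _))).trans' (pow_zero p).ge)]
  refine le_trans ?_ (sum_le_sum_of_subset
    (show richPrimes 1 A n ⊆ n.primeFactors from filter_subset _ _))
  rw [mul_comm, ← smul_eq_mul, richPrimes]
  refine card_nsmul_le_sum _ _ _ fun p hp => ?_
  obtain ⟨-, h1, hA⟩ := mem_filter.1 hp
  rw [show shifted 1 p = p + 1 by rw [shifted]; omega] at hA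
  rw [h1, sum_range_succ, sum_range_one, pow_zero, pow_one, add_comm 1 p]
  exact hA.le.trans (Nat.cast_le.1 (FA.OmegaPhi.card_le_cardFactors (p + 1)))

/-- `V x ≤ x / (log x) ^ (1 - ε)` for totients. -/
theorem eventually_totient_le {ε : ℝ} (hε : 0 < ε) :
    ∀ᶠ x : ℕ in atTop, (valueCount Nat.totient x : ℝ) ≤ x / Real.log x ^ (1 - ε) :=
  eventually_valueCount_le (a := -1) (by norm_num) Nat.totient_zero (fun _ h => le_totient_mul h)
    mul_card_richPrimes_totient_le hε

theorem eventually_le_totient {ε : ℝ} (hε : 0 < ε) :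
    ∀ᶠ x : ℕ in atTop, (x : ℝ) / Real.log x ^ (1 + ε) ≤ valueCount Nat.totient x :=
  eventually_le_valueCount (fun p => p - 1) (fun p hp => ⟨p, Nat.totient_prime hp⟩)
    (fun p hp q hq h => by
      have h2 : p - 1 = q - 1 := h
      have := Nat.Prime.one_le hp
      have := Nat.Prime.one_le hq
      omega)
    (fun p x hp hpx => by have := hp.two_le; omega) hε

theorem eventually_sigma_le {ε : ℝ} (hε : 0 < ε) :
    ∀ᶠ x : ℕ in atTop, (valueCount (fun n => ∑ d ∈ n.divisors, d) x : ℝ) ≤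
      x / Real.log x ^ (1 - ε) :=
  eventually_valueCount_le (a := 1) one_ne_zero (by simp)
    (fun n h => (single_le_sum (f := fun d => d) (fun _ _ => Nat.zero_le _)
      (Nat.mem_divisors_self n h)).trans (Nat.le_mul_of_pos_right _ (by omega)))
    mul_card_richPrimes_sigma_le hε

theorem eventually_le_sigma {ε : ℝ} (hε : 0 < ε) :
    ∀ᶠ x : ℕ in atTop, (x : ℝ) / Real.log x ^ (1 + ε) ≤
      valueCount (fun n => ∑ d ∈ n.divisors, d) x :=
  eventually_le_valueCount (fun p => p + 1)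
    (fun p hp => ⟨p, by simp [hp.divisors, Finset.sum_pair hp.ne_one.symm, add_comm]⟩)
    (fun p _ q _ h => Nat.succ_injective h) (fun p x hp hpx => by omega) hε

end FA.TotientValues

end
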