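import Fermat.Agent.OmegaPhi.Totient
import Fermat.Agent.HooleyDelta.Mean

/-!
# Integers with many prime factors, and integers with few primes `p` for which `p + a` is rich

* At most `x (3 + log x) / 2 ^ K` of the `m ≤ x` have `Ω m ≥ 3 K`: such an `m` has `K` distinct
  prime factors or a square divisor `d ^ 2` with `d ≥ 2 ^ K`.
* The primes `p` with `ω |p + a| ≤ A` have relative density zero, so their `1 / p` sum to
  `o (log log N)`. By the mean value bound for multiplicative functions, the `n ≤ X` with at most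
  `t` exact prime divisors outside this set number `≪ u ^ (-t) X / log X · (log X) ^ (u + δ)`.
-/

set_option autoImplicit false

noncomputable section

namespace FA.TotientValues

open Finset Filter
open FA.ErdosKac (primesUpTo mem_primesUpTo recipSum loglog tendsto_loglog)
open FA.ShiftedPrimeOmega (shifted)
open scoped Topology ArithmeticFunction.Omega

theorem two_pow_card_le_card_divisors {n : ℕ} (hn : n ≠ 0) :
    2 ^ n.primeFactors.card ≤ n.divisors.card := by
  rw [Nat.card_divisors hn, ← prod_const]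
  exact prod_le_prod' fun p hp => Nat.succ_le_succ (FA.OmegaPhi.one_le_factorization hp)

theorem sum_card_divisors_le_mul_log (x : ℕ) :
    ((∑ m ∈ Ioc 0 x, m.divisors.card : ℕ) : ℝ) ≤ x * (1 + Real.log x) := by
  have e : ∑ m ∈ Ioc 0 x, m.divisors.card = ∑ d ∈ Ioc 0 x, x / d := by
    rw [sum_congr rfl fun m hm => show m.divisors.card =
        ((Ioc 0 x).filter fun d => d ∣ m).card from congrArg Finset.card (by
      rw [mem_Ioc] at hm
      ext d
      simp only [Nat.mem_divisors, mem_filter, mem_Ioc]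
      exact ⟨fun ⟨h, h0⟩ => ⟨⟨Nat.pos_of_dvd_of_pos h (by omega),
        (Nat.le_of_dvd (by omega) h).trans hm.2⟩, h⟩, fun ⟨_, h⟩ => ⟨h, by omega⟩⟩)]
    simp only [card_filter]
    rw [sum_comm]
    refine sum_congr rfl fun d _ => ?_
    rw [← card_filter, Nat.Ioc_filter_dvd_card_eq_div]
  rw [e, Nat.cast_sum]
  refine (sum_le_sum fun d _ => Nat.cast_div_le.trans (le_of_eq (div_eq_mul_inv _ _))).trans ?_
  rw [← mul_sum]
  refine mul_le_mul_of_nonneg_left (le_trans (le_of_eq ?_) (harmonic_le_one_add_log x))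
    (Nat.cast_nonneg x)
  simp [harmonic_eq_sum_Icc, ← Finset.Icc_add_one_left_eq_Ioc]

/-- An integer with `3 K` prime factors has `K` distinct ones or a large square divisor. -/
theorem exists_sq_dvd {m K : ℕ} (hm : m ≠ 0) (hΩ : 3 * K ≤ Ω m)
    (hω : m.primeFactors.card < K) : ∃ d, 2 ^ K ≤ d ∧ d ^ 2 ∣ m := by
  refine ⟨∏ p ∈ m.primeFactors, p ^ (m.factorization p / 2), ?_, ?_⟩
  · refine le_trans ?_ (prod_le_prod' fun p hp =>
      Nat.pow_le_pow_left (Nat.prime_of_mem_primeFactors hp).two_le _)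
    rw [prod_pow_eq_pow_sum]
    refine Nat.pow_le_pow_right two_pos ?_
    rw [ArithmeticFunction.cardFactors_eq_sum_factorization, Finsupp.sum,
      Nat.support_factorization] at hΩ
    have h : ∑ p ∈ m.primeFactors, m.factorization p ≤
        ∑ p ∈ m.primeFactors, (2 * (m.factorization p / 2) + 1) :=
      sum_le_sum fun p _ => by omega
    rw [sum_add_distrib, ← mul_sum, sum_const, smul_eq_mul, mul_one] at h
    omega
  · conv_rhs => rw [Nat.prod_primeFactors_pow_factorization hm]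
    rw [← prod_pow]
    refine prod_dvd_prod_of_dvd _ _ fun p _ => ?_
    rw [← pow_mul]
    exact pow_dvd_pow _ (Nat.div_mul_le_self _ _)

/-- **The `m ≤ x` with `Ω m ≥ 3 K`.** -/
theorem card_many_factors_le (x K : ℕ) :
    (((Icc 1 x).filter fun m => 3 * K ≤ Ω m).card : ℝ) ≤ x * (3 + Real.log x) / 2 ^ K := by
  obtain ⟨A, hA⟩ : ∃ A, A = (Icc (2 ^ K) x).biUnion fun d =>
      (Ioc 0 x).filter fun m => d ^ 2 ∣ m := ⟨_, rfl⟩
  obtain ⟨B, hB⟩ : ∃ B, B = (Ioc 0 x).filter fun m => K ≤ m.primeFactors.card := ⟨_, rfl⟩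
  have hsub : ((Icc 1 x).filter fun m => 3 * K ≤ Ω m) ⊆ A ∪ B := fun m hm => by
    obtain ⟨hm, hΩ⟩ := mem_filter.1 hm
    rw [mem_Icc] at hm
    rw [mem_union, hA, hB, mem_biUnion, mem_filter, mem_Ioc]
    by_cases hω : K ≤ m.primeFactors.card
    · exact Or.inr ⟨⟨hm.1, hm.2⟩, hω⟩
    · obtain ⟨d, hd, hdvd⟩ := exists_sq_dvd (Nat.one_le_iff_ne_zero.1 hm.1) hΩ (not_le.1 hω)
      refine Or.inl ⟨d, mem_Icc.2 ⟨hd, ?_⟩, mem_filter.2 ⟨mem_Ioc.2 ⟨hm.1, hm.2⟩, hdvd⟩⟩
      exact ((Nat.le_self_pow two_ne_zero d).trans (Nat.le_of_dvd hm.1 hdvd)).trans hm.2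
  have hA' : (A.card : ℝ) ≤ x * (2 / 2 ^ K) := by
    refine (Nat.cast_le.2 (hA ▸ card_biUnion_le)).trans ?_
    rw [Nat.cast_sum]
    refine (sum_le_sum (g := fun d : ℕ => (x : ℝ) * ((d : ℝ) ^ 2)⁻¹) fun d _ => ?_).trans ?_
    · rw [Nat.Ioc_filter_dvd_card_eq_div]
      refine Nat.cast_div_le.trans (le_of_eq ?_)
      rw [Nat.cast_pow, div_eq_mul_inv]
    · rw [← mul_sum]
      refine mul_le_mul_of_nonneg_left ?_ (Nat.cast_nonneg x)
      have h1 : 1 ≤ 2 ^ K := Nat.one_le_two_pow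
      refine (sum_le_sum_of_subset_of_nonneg (t := Ioo (2 ^ K - 1) (x + 1)) (fun d hd => ?_)
        fun d _ _ => by positivity).trans ((sum_Ioo_inv_sq_le _ _).trans (le_of_eq ?_))
      · rw [mem_Icc] at hd
        rw [mem_Ioo]
        omega
      · rw [Nat.cast_sub h1]
        push_cast
        ring
  have hB' : (B.card : ℝ) ≤ x * (1 + Real.log x) / 2 ^ K := by
    rw [le_div_iff₀ (by positivity)]
    refine le_trans ?_ (sum_card_divisors_le_mul_log x)
    have h : B.card * 2 ^ K ≤ ∑ m ∈ Ioc 0 x, m.divisors.card := by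
      refine le_trans ?_ (sum_le_sum_of_subset (hB ▸ filter_subset _ _))
      rw [← smul_eq_mul]
      refine card_nsmul_le_sum _ _ _ fun m hm => ?_
      rw [hB, mem_filter, mem_Ioc] at hm
      exact (Nat.pow_le_pow_right two_pos hm.2).trans (two_pow_card_le_card_divisors (by omega))
    exact_mod_cast h
  refine (Nat.cast_le.2 ((card_le_card hsub).trans (card_union_le _ _))).trans ?_
  rw [Nat.cast_add]
  refine (add_le_add hA' hB').trans (le_of_eq ?_)
  ring

variable {a : ℤ}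

/-- **The primes `p` with `ω |p + a| ≤ A`** have reciprocal sum `o (log log N)`. -/
theorem exists_sum_few_le (ha : a ≠ 0) (A : ℕ) {δ : ℝ} (hδ : 0 < δ) : ∃ C : ℝ, ∀ N : ℕ, 2 ≤ N →
    ∑ p ∈ primesUpTo N, (if (shifted a p).primeFactors.card ≤ A then (p : ℝ)⁻¹ else 0) ≤
      δ * loglog N + C := by
  obtain ⟨Cp, hCp, hπ⟩ := FA.OmegaPhi.exists_card_le
  obtain ⟨P, hP⟩ : ∃ P : ℕ, P = ⌊Real.exp (Real.exp (2 * A))⌋₊ := ⟨_, rfl⟩
  obtain ⟨Q, hQ⟩ : ∃ Q : ℕ → Finset ℕ,
      Q = fun m => (primesUpTo m).filter fun p => (shifted a p).primeFactors.card ≤ A := ⟨_, rfl⟩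
  have hden : ∀ᶠ m : ℕ in atTop, ((Q m).card : ℝ) ≤ δ * ((m : ℝ) / Real.log m) := by
    have hlog := ((Real.isLittleO_log_id_atTop.def
      (show 0 < δ / (2 * (P + 1)) by positivity)).natCast_atTop)
    filter_upwards [(FA.ShiftedPrimeOmega.tendsto_abnormal ha
        (show (0 : ℝ) < 1 / 2 by norm_num)).eventually_lt_const
        (show (0 : ℝ) < δ / (2 * (Cp + 1)) by positivity),
      hlog, eventually_ge_atTop 2] with m hm hl hm2
    obtain ⟨X, hX⟩ : ∃ X, X = ((primesUpTo m).filter fun p => (1 / 2 : ℝ) * loglog p <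
        |((shifted a p).primeFactors.card : ℝ) - loglog p|) := ⟨_, rfl⟩
    rw [← hX] at hm
    have hsub : Q m ⊆ Icc 1 P ∪ X := fun p hp => by
      rw [hQ] at hp
      obtain ⟨hp, hA⟩ := mem_filter.1 hp
      obtain ⟨hpp, -⟩ := mem_primesUpTo.1 hp
      rw [mem_union, mem_Icc, hX, mem_filter]
      by_cases hsm : p ≤ P
      · exact Or.inl ⟨hpp.one_le, hsm⟩
      refine Or.inr ⟨hp, lt_abs.2 (Or.inr ?_)⟩
      rw [hP, not_le, Nat.floor_lt (Real.exp_nonneg _)] at hsm
      have h1 : Real.exp (2 * A) < Real.log p :=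
        (Real.lt_log_iff_exp_lt (Nat.cast_pos.2 hpp.pos)).2 hsm
      have h2 : (2 * A : ℝ) < loglog p :=
        (Real.lt_log_iff_exp_lt ((Real.exp_pos _).trans h1)).2 h1
      have h3 : ((shifted a p).primeFactors.card : ℝ) ≤ A := Nat.cast_le.2 hA
      linarith
    refine (Nat.cast_le.2 ((card_le_card hsub).trans (card_union_le _ _))).trans ?_
    rw [Nat.cast_add, Nat.card_Icc, Nat.add_sub_cancel]
    have hl0 : 0 < Real.log m := Real.log_pos (Nat.one_lt_cast.2 (by omega))
    have hD := FA.OmegaPhi.div_log_pos hm2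
    have hP' : (P : ℝ) ≤ δ / 2 * ((m : ℝ) / Real.log m) := by
      simp only [id, Real.norm_eq_abs, Nat.abs_cast, abs_of_nonneg hl0.le] at hl
      rw [div_mul_eq_mul_div, le_div_iff₀ (by positivity)] at hl
      rw [mul_div_assoc', le_div_iff₀ hl0]
      linarith
    have hX' : (X.card : ℝ) ≤ δ / 2 * ((m : ℝ) / Real.log m) := by
      have hS0 : (0 : ℝ) < (primesUpTo m).card :=
        Nat.cast_pos.2 (card_pos.2 ⟨2, mem_primesUpTo.2 ⟨Nat.prime_two, hm2⟩⟩)
      rw [div_lt_iff₀ hS0] at hm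
      refine hm.le.trans ((mul_le_mul_of_nonneg_left (hπ m hm2) (by positivity)).trans ?_)
      rw [← mul_assoc]
      refine mul_le_mul_of_nonneg_right ?_ hD.le
      rw [div_mul_eq_mul_div, div_le_iff₀ (by positivity)]
      linarith
    linarith
  obtain ⟨m₀, hm₀⟩ := eventually_atTop.1 hden
  refine ⟨4 * δ + recipSum m₀, fun N hN => ?_⟩
  obtain ⟨h, hh⟩ : ∃ h : ℕ → ℝ, h = fun p =>
      if m₀ < p ∧ (shifted a p).primeFactors.card ≤ A then 1 else 0 := ⟨_, rfl⟩
  have hh0 : ∀ p, 0 ≤ h p := fun p => by rw [hh]; dsimp only; split_ifs <;> norm_num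
  have hbound : ∀ m, 2 ≤ m → m ≤ N → |∑ p ∈ primesUpTo m, h p| ≤ δ * ((m : ℝ) / Real.log m) :=
    fun m hm _ => by
    rw [abs_of_nonneg (sum_nonneg fun p _ => hh0 p), hh]
    rw [sum_boole]
    rcases le_or_gt m₀ m with hle | hlt
    · refine le_trans (Nat.cast_le.2 (card_le_card fun p hp => ?_)) (hm₀ m hle)
      rw [hQ]
      exact mem_filter.2 ⟨(mem_filter.1 hp).1, (mem_filter.1 hp).2.2⟩
    · rw [filter_false_of_mem fun p hp hc => by have := (mem_primesUpTo.1 hp).2; omega]
      rw [card_empty, Nat.cast_zero]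
      exact (mul_pos hδ (FA.OmegaPhi.div_log_pos hm)).le
  have hmain := (le_abs_self _).trans (FA.OmegaPhi.abs_sum_div_le hN hbound)
  have hsmall : ∑ p ∈ primesUpTo N, (if p ≤ m₀ then (p : ℝ)⁻¹ else 0) ≤ recipSum m₀ := by
    rw [← sum_filter, recipSum]
    exact sum_le_sum_of_subset_of_nonneg (fun p hp => mem_primesUpTo.2
      ⟨(mem_primesUpTo.1 (mem_filter.1 hp).1).1, (mem_filter.1 hp).2⟩) fun _ _ _ => by positivity
  refine (sum_le_sum (g := fun p => h p / p + if p ≤ m₀ then (p : ℝ)⁻¹ else 0) fun p _ => ?_).trans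
    ?_
  · have h0 : (0 : ℝ) ≤ (p : ℝ)⁻¹ := by positivity
    rw [hh]
    dsimp only
    split_ifs with h1 h2 <;> first | omega | (simp only [one_div, zero_div]; linarith)
  · rw [sum_add_distrib]
    linarith

/-- The exact prime divisors `p` of `n` with `ω |p + a| > A`. -/
def richPrimes (a : ℤ) (A n : ℕ) : Finset ℕ :=
  n.primeFactors.filter fun p => n.factorization p = 1 ∧ A < (shifted a p).primeFactors.card

theorem card_richPrimes_mul (a : ℤ) (A : ℕ) {m n : ℕ} (hm : m ≠ 0) (hn : n ≠ 0)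
    (h : m.Coprime n) :
    (richPrimes a A (m * n)).card = (richPrimes a A m).card + (richPrimes a A n).card := by
  have hd := h.disjoint_primeFactors
  rw [richPrimes, richPrimes, richPrimes, Nat.primeFactors_mul hm hn, filter_union,
    card_union_of_disjoint (disjoint_filter_filter hd)]
  congr 2 <;> refine filter_congr fun p hp => ?_ <;> rw [Nat.factorization_mul hm hn,
    Finsupp.add_apply]
  · rw [show n.factorization p = 0 from Finsupp.notMem_support_iff.1
      (Nat.support_factorization n ▸ disjoint_left.1 hd hp), add_zero]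
  · rw [show m.factorization p = 0 from Finsupp.notMem_support_iff.1
      (Nat.support_factorization m ▸ disjoint_right.1 hd hp), zero_add]

/-- `u` to the number of rich exact prime divisors. -/
def richWeight (a : ℤ) (A : ℕ) (u : ℝ) (n : ℕ) : ℝ :=
  if n = 0 then 0 else u ^ (richPrimes a A n).card

/-- **The `n ≤ X` with at most `t` rich exact prime divisors.** -/
theorem exists_card_few_rich_le (ha : a ≠ 0) (A : ℕ) {u δ : ℝ} (hu : 0 < u) (hu1 : u ≤ 1)
    (hδ : 0 < δ) : ∃ C : ℝ, 0 ≤ C ∧ ∀ X : ℕ, 2 ≤ X → ∀ t : ℝ,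
      (((Icc 1 X).filter fun n => ((richPrimes a A n).card : ℝ) ≤ t).card : ℝ) ≤
        C * u ^ (-t) * ((X : ℝ) / Real.log X) * Real.exp ((u + δ) * loglog X) := by
  obtain ⟨CH, hCH, hH⟩ := FA.HooleyDelta.exists_sum_le
  obtain ⟨CM, hM⟩ := FA.ErdosKac.exists_abs_recipSum_sub_le
  obtain ⟨CF, hF⟩ := exists_sum_few_le ha A hδ
  refine ⟨CH * Real.exp (u * CM + CF), by positivity, fun X hX t => ?_⟩
  obtain ⟨f, hf⟩ : ∃ f, f = richWeight a A u := ⟨_, rfl⟩
  have hf0 : ∀ n, 0 ≤ f n := fun n => by rw [hf, richWeight]; split_ifs <;> positivity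
  have hsum : ∑ n ∈ Icc 1 X, f n ≤
      CH * ((X : ℝ) / Real.log X) * Real.exp (∑ p ∈ primesUpTo X, f p / p) := by
    refine hH f hf0 (by simp [hf, richWeight, richPrimes]) (fun m n hmn => ?_) (fun n => ?_) X hX
    · rcases eq_or_ne m 0 with rfl | hm
      · simp [hf, richWeight]
      rcases eq_or_ne n 0 with rfl | hn
      · simp [hf, richWeight]
      rw [hf, richWeight, richWeight, richWeight, if_neg hm, if_neg hn,
        if_neg (Nat.mul_ne_zero hm hn), card_richPrimes_mul a A hm hn hmn, pow_add]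
    · rw [hf, richWeight]
      split_ifs with hn
      · exact Nat.cast_nonneg _
      · exact (pow_le_one₀ hu.le hu1).trans
          (Nat.one_le_cast.2 (card_pos.2 (Nat.nonempty_divisors.2 hn)))
  have hexp : ∑ p ∈ primesUpTo X, f p / p ≤ (u + δ) * loglog X + (u * CM + CF) := by
    refine (sum_le_sum (g := fun p : ℕ => u * (p : ℝ)⁻¹ +
      if (shifted a p).primeFactors.card ≤ A then (p : ℝ)⁻¹ else 0) fun p hp => ?_).trans ?_
    · have hpp := (mem_primesUpTo.1 hp).1
      have h0 : (0 : ℝ) ≤ (p : ℝ)⁻¹ := by positivity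
      rw [hf, richWeight, if_neg hpp.ne_zero, richPrimes, hpp.primeFactors, filter_singleton,
        hpp.factorization_self, div_eq_mul_inv]
      by_cases hc : (shifted a p).primeFactors.card ≤ A
      · rw [if_neg fun h => absurd h.2 (not_lt.2 hc), if_pos hc, card_empty, pow_zero, one_mul]
        linarith [mul_nonneg hu.le h0]
      · rw [if_pos ⟨rfl, not_le.1 hc⟩, if_neg hc, card_singleton, pow_one, add_zero]
    · rw [sum_add_distrib, ← mul_sum, ← recipSum]
      have h1 : recipSum X ≤ loglog X + CM := by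
        rw [loglog]; linarith [(abs_le.1 (hM X hX)).2]
      linarith [mul_le_mul_of_nonneg_left h1 hu.le, hF X hX]
  have hlow : ((((Icc 1 X).filter fun n => ((richPrimes a A n).card : ℝ) ≤ t).card : ℝ)) * u ^ t ≤
      ∑ n ∈ Icc 1 X, f n := by
    refine le_trans ?_ (sum_le_sum_of_subset_of_nonneg (filter_subset
      (fun n => ((richPrimes a A n).card : ℝ) ≤ t) _) fun n _ _ => hf0 n)
    rw [← nsmul_eq_mul]
    refine card_nsmul_le_sum _ _ _ fun n hn => ?_
    obtain ⟨hn, ht⟩ := mem_filter.1 hn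
    rw [mem_Icc] at hn
    rw [hf, richWeight, if_neg (by omega), ← Real.rpow_natCast]
    exact Real.rpow_le_rpow_of_exponent_ge hu hu1 ht
  have hut : 0 < u ^ t := Real.rpow_pos_of_pos hu t
  rw [← le_div_iff₀ hut] at hlow
  refine hlow.trans ?_
  rw [div_eq_mul_inv, ← Real.rpow_neg hu.le]
  refine (mul_le_mul_of_nonneg_right (hsum.trans (mul_le_mul_of_nonneg_left
    (Real.exp_le_exp.2 hexp) (mul_nonneg hCH (div_nonneg (Nat.cast_nonneg X)
      (Real.log_natCast_nonneg X))))) (Real.rpow_nonneg hu.le _)).trans (le_of_eq ?_)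
  rw [Real.exp_add]
  ring

end FA.TotientValues

end
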